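/-
Lib/EtaUnit (architect helper213).  TASK EU-9.
SKELETON FILE: statements are frozen interfaces; the task owner replaces every `sorry`.

`diag(m,1) γ = γ' [[A,B],[0,D]]` on the upper half plane.
-/
import Fermat.Agent.Lib.EtaUnit.W1

set_option autoImplicit false

namespace Fermat.Agent.Lib.EtaUnit

open UpperHalfPlane ModularCurve CongruenceSubgroup Fermat.Agent.S24 Fermat.Agent.S24.B
open scoped MatrixGroups Real Manifold

theorem triMat_eq_dilMat (m : ℕ) [NeZero m] (hm : (0 : ℤ) < (m : ℤ)) :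
    triMat (m : ℤ) 0 1 hm one_pos = dilMat m := by
  apply Units.ext
  ext i j
  fin_cases i <;> fin_cases j <;> simp [triMat, dilMat]

theorem coe_dilMat_smul (m : ℕ) [NeZero m] (τ : ℍ) : ((dilMat m • τ : ℍ) : ℂ) = (m : ℂ) * τ := by
  have hm : (0 : ℤ) < (m : ℤ) := by exact_mod_cast Nat.pos_of_ne_zero (NeZero.ne m)
  rw [← triMat_eq_dilMat m hm, coe_triMat_smul]
  simp

/-- `γ = [[α, β], [c, d]]`, `c = c' A`, `A D = m`, `D ∣ d - c' B`:
`γ' = [[α D, β A - α B], [c', (d - c' B) / D]]`.  Compare the points as complex numbers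
(`UpperHalfPlane.ext`, `coe_triMat_smul`, `coe_dilMat_smul`, `UpperHalfPlane.specialLinearGroup_apply`). -/
theorem exists_dil_smul (m : ℕ) [NeZero m] (γ : SL(2, ℤ)) (A B D c' : ℤ) (hA : 0 < A) (hD : 0 < D)
    (hAD : A * D = m) (hc : γ 1 0 = c' * A) (hB : D ∣ γ 1 1 - c' * B) :
    ∃ γ' : SL(2, ℤ), γ' 1 0 = c' ∧ γ' 1 1 * D = γ 1 1 - c' * B ∧
      ∀ τ : ℍ, dilMat m • γ • τ = γ' • triMat A B D hA hD • τ ∧
        denom γ' (triMat A B D hA hD • τ : ℍ) * D = denom γ τ := by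
  obtain ⟨e, he⟩ := hB
  have hdet : γ 0 0 * γ 1 1 - γ 0 1 * γ 1 0 = 1 := by
    have := γ.2
    rwa [Matrix.det_fin_two] at this
  have hd : γ 1 1 = D * e + c' * B := by linarith
  let γ' : SL(2, ℤ) := ⟨!![γ 0 0 * D, γ 0 1 * A - γ 0 0 * B; c', e], by
    rw [Matrix.det_fin_two_of]
    rw [hc, hd] at hdet
    linear_combination hdet⟩
  have h00 : γ' 0 0 = γ 0 0 * D := rfl
  have h01 : γ' 0 1 = γ 0 1 * A - γ 0 0 * B := rfl
  have h10 : γ' 1 0 = c' := rfl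
  have h11 : γ' 1 1 = e := rfl
  have hDC : (D : ℂ) ≠ 0 := by exact_mod_cast hD.ne'
  have hmC : (m : ℂ) = (A : ℂ) * D := by exact_mod_cast hAD.symm
  have hcC : ((γ 1 0 : ℤ) : ℂ) = (c' : ℂ) * A := by exact_mod_cast hc
  have hdC : ((γ 1 1 : ℤ) : ℂ) = (D : ℂ) * e + c' * B := by exact_mod_cast hd
  refine ⟨γ', h10, by rw [h11, he, mul_comm], fun τ => ?_⟩
  have hden : denom γ' (triMat A B D hA hD • τ : ℍ) * D = denom γ τ := by
    rw [ModularGroup.denom_apply, ModularGroup.denom_apply, coe_triMat_smul, h10, h11, hcC, hdC]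
    field_simp
    ring
  refine ⟨?_, hden⟩
  have hne : denom γ τ ≠ 0 := denom_ne_zero _ τ
  have hne' : denom γ' (triMat A B D hA hD • τ : ℍ) ≠ 0 := denom_ne_zero _ _
  rw [ModularGroup.denom_apply] at hne hne'
  apply UpperHalfPlane.ext
  rw [coe_dilMat_smul, coe_specialLinearGroup_apply, coe_specialLinearGroup_apply]
  simp only [algebraMap_int_eq, eq_intCast, Complex.ofReal_intCast]
  rw [mul_div_assoc', div_eq_div_iff hne hne']
  rw [ModularGroup.denom_apply, ModularGroup.denom_apply] at hden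
  rw [← hden, h00, h01, coe_triMat_smul, hmC]
  push_cast
  field_simp
  ring

/-- Take `A = gcd (m, c)`; `c' = c / A` is prime to `D = m / A`. -/
theorem exists_ABD (m : ℕ) [NeZero m] (γ : SL(2, ℤ)) :
    ∃ A B D c' : ℤ, 0 < A ∧ 0 < D ∧ A * D = m ∧ γ 1 0 = c' * A ∧ D ∣ γ 1 1 - c' * B := by
  have hm : (0 : ℤ) < (m : ℤ) := by exact_mod_cast Nat.pos_of_ne_zero (NeZero.ne m)
  set A : ℤ := (Int.gcd (m : ℤ) (γ 1 0) : ℤ) with hA
  have hA0 : A ≠ 0 := by
    intro h0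
    have h0' : Int.gcd (m : ℤ) (γ 1 0) = 0 := by rw [hA] at h0; exact_mod_cast h0
    rw [Int.gcd_eq_zero_iff] at h0'
    exact hm.ne' h0'.1
  have hApos : 0 < A := lt_of_le_of_ne (by positivity) (Ne.symm hA0)
  obtain ⟨D, hD⟩ : A ∣ (m : ℤ) := Int.gcd_dvd_left _ _
  obtain ⟨c', hc'⟩ : A ∣ γ 1 0 := Int.gcd_dvd_right _ _
  have hDpos : 0 < D := by
    rw [hD] at hm
    exact (mul_pos_iff_of_pos_left hApos).1 hm
  have hbez : A = (m : ℤ) * Int.gcdA (m : ℤ) (γ 1 0) + γ 1 0 * Int.gcdB (m : ℤ) (γ 1 0) :=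
    Int.gcd_eq_gcd_ab _ _
  set x := Int.gcdA (m : ℤ) (γ 1 0)
  set y := Int.gcdB (m : ℤ) (γ 1 0)
  have hbez' : D * x + c' * y = 1 := by
    have h1 : A * (D * x + c' * y) = A * 1 := by
      rw [mul_one]
      conv_rhs => rw [hbez, hD, hc']
      ring
    exact mul_left_cancel₀ hA0 h1
  refine ⟨A, y * γ 1 1, D, c', hApos, hDpos, hD.symm, by rw [hc', mul_comm], ⟨x * γ 1 1, ?_⟩⟩
  linear_combination (-(γ 1 1)) * hbez'

end Fermat.Agent.Lib.EtaUnit
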