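/-
Lib/EtaUnit (architect helper213).  TASK EU-10.
SKELETON FILE: statements are frozen interfaces; the task owner replaces every `sorry`.

The conjugates of `x_m(τ) = G(τ) / G(m τ)` under `Γ₀(a)`.
-/
import Fermat.Agent.Lib.EtaUnit.Unit.Matrix

set_option autoImplicit false

namespace Fermat.Agent.Lib.EtaUnit

open UpperHalfPlane ModularCurve CongruenceSubgroup Fermat.Agent.S24 Fermat.Agent.S24.B
open scoped MatrixGroups Real Manifold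

variable {a : ℕ} {χ : ℤ → ℤ} {G : ℍ → ℂ} {Gs : PowerSeries ℤ}

theorem mem_Gamma0_iff_dvd {n : ℕ} {γ : SL(2, ℤ)} : γ ∈ Gamma0 n ↔ (n : ℤ) ∣ γ 1 0 := by
  rw [Gamma0_mem, ZMod.intCast_zmod_eq_zero_iff_dvd]

/-- the lower right entry of an element of `Γ₀(a)` is prime to `a`. -/
theorem isCoprime_of_mem_Gamma0 {n : ℕ} {γ : SL(2, ℤ)} (hγ : γ ∈ Gamma0 n) :
    IsCoprime (γ 1 1) (n : ℤ) := by
  obtain ⟨k, hk⟩ := mem_Gamma0_iff_dvd.mp hγ
  have hdet : γ 0 0 * γ 1 1 - γ 0 1 * γ 1 0 = 1 := by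
    have := γ.2
    rwa [Matrix.det_fin_two] at this
  exact ⟨γ 0 0, -(γ 0 1 * k), by rw [hk] at hdet; linear_combination hdet⟩

theorem IsW1.chi_sq_cast (h : IsW1 a χ G Gs) {n : ℤ} (hn : IsCoprime n (a : ℤ)) :
    (χ n : ℂ) * (χ n : ℂ) = 1 := by
  exact_mod_cast h.chi_sq n hn

theorem isCoprime_of_mul_eq {m : ℕ} (hm : Nat.Coprime m a) {A D : ℤ} (hAD : A * D = m) :
    IsCoprime A (a : ℤ) ∧ IsCoprime D (a : ℤ) := by
  have h1 : IsCoprime (A * D) (a : ℤ) := by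
    rw [hAD]
    exact Nat.isCoprime_iff_coprime.mpr hm
  exact ⟨h1.of_mul_left_left, h1.of_mul_left_right⟩

/-- PROOF.  `exists_dil_smul` gives `γ'` with lower row `(c', d')`, `d' D = d - c' B`.  `a ∣ c = c' A` and
`gcd (a, A) = 1` give `γ' ∈ Γ₀(a)`; `d' D ≡ d mod a` gives `χ d' = χ d * χ D` (`chi_mul`, `chi_per`,
`chi_sq`; `D` is prime to `a`); apply `h.aut γ'`. -/
theorem G_dil_smul (h : IsW1 a χ G Gs) (m : ℕ) [NeZero m] (hm : Nat.Coprime m a) (γ : SL(2, ℤ))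
    (hγ : γ ∈ Gamma0 a) (A B D c' : ℤ) (hA : 0 < A) (hD : 0 < D) (hAD : A * D = m)
    (hc : γ 1 0 = c' * A) (hB : D ∣ γ 1 1 - c' * B) (τ : ℍ) :
    G (dilMat m • γ • τ) =
      (χ (γ 1 1) : ℂ) * (χ D : ℂ) * (denom γ τ / D) * G (triMat A B D hA hD • τ) := by
  obtain ⟨γ', h10, h11, hτ⟩ := exists_dil_smul m γ A B D c' hA hD hAD hc hB
  obtain ⟨hsm, hden⟩ := hτ τ
  obtain ⟨hcA, hcD⟩ := isCoprime_of_mul_eq hm hAD
  have hac' : (a : ℤ) ∣ c' := by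
    have h1 : (a : ℤ) ∣ c' * A := hc ▸ mem_Gamma0_iff_dvd.mp hγ
    exact hcA.symm.dvd_of_dvd_mul_right h1
  have hγ' : γ' ∈ Gamma0 a := mem_Gamma0_iff_dvd.mpr (h10 ▸ hac')
  have hχ : χ (γ' 1 1) = χ (γ 1 1) * χ D := by
    have h1 : χ (γ' 1 1 * D) = χ (γ 1 1) := by
      refine h.chi_per _ _ ?_
      rw [h11]
      have : γ 1 1 - c' * B - γ 1 1 = -(c' * B) := by ring
      rw [this]
      exact (Dvd.dvd.mul_right hac' B).neg_right
    rw [h.chi_mul] at h1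
    have h2 := h.chi_sq D hcD
    calc χ (γ' 1 1) = χ (γ' 1 1) * (χ D * χ D) := by rw [h2, mul_one]
      _ = (χ (γ' 1 1) * χ D) * χ D := by ring
      _ = χ (γ 1 1) * χ D := by rw [h1]
  have hD0 : (D : ℂ) ≠ 0 := by exact_mod_cast hD.ne'
  have hden' : denom γ' (triMat A B D hA hD • τ : ℍ) = denom γ τ / D := by
    rw [eq_div_iff hD0]
    exact hden
  rw [hsm, h.aut γ' hγ', hχ, hden']
  push_cast
  ring

/-- `x_m (γ τ) = χ(D) D G(τ) / G((A τ + B) / D)`. -/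
theorem xfun_smul (h : IsW1 a χ G Gs) (m : ℕ) [NeZero m] (hm : Nat.Coprime m a) (γ : SL(2, ℤ))
    (hγ : γ ∈ Gamma0 a) (A B D c' : ℤ) (hA : 0 < A) (hD : 0 < D) (hAD : A * D = m)
    (hc : γ 1 0 = c' * A) (hB : D ∣ γ 1 1 - c' * B) (τ : ℍ) :
    xfun G m (γ • τ) = (χ D : ℂ) * D * (G τ / G (triMat A B D hA hD • τ)) := by
  obtain ⟨-, hcD⟩ := isCoprime_of_mul_eq hm hAD
  have h1 := h.chi_sq_cast hcD
  have h2 := h.chi_sq_cast (isCoprime_of_mem_Gamma0 hγ)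
  have hχD : (χ D : ℂ) ≠ 0 := fun h0 => by rw [h0, mul_zero] at h1; exact zero_ne_one h1
  have hχd : (χ (γ 1 1) : ℂ) ≠ 0 := fun h0 => by rw [h0, mul_zero] at h2; exact zero_ne_one h2
  have hD0 : (D : ℂ) ≠ 0 := by exact_mod_cast hD.ne'
  have hden : denom γ τ ≠ 0 := denom_ne_zero _ τ
  have hG := h.ne_zero (triMat A B D hA hD • τ)
  unfold xfun
  rw [G_dil_smul h m hm γ hγ A B D c' hA hD hAD hc hB τ, h.aut γ hγ]
  field_simp
  linear_combination (-(G τ)) * h1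

/-- `x_m` is invariant under `Γ₀(a m)` (case `A = m`, `B = 0`, `D = 1`). -/
theorem xfun_smul_of_mem (h : IsW1 a χ G Gs) (m N : ℕ) [NeZero m] (hm : Nat.Coprime m a)
    (hN : a * m ∣ N) (γ : SL(2, ℤ)) (hγ : γ ∈ Gamma0 N) (τ : ℍ) :
    xfun G m (γ • τ) = xfun G m τ := by
  have hmpos : (0 : ℤ) < (m : ℤ) := by exact_mod_cast Nat.pos_of_ne_zero (NeZero.ne m)
  have hN' : (N : ℤ) ∣ γ 1 0 := mem_Gamma0_iff_dvd.mp hγ
  have ha : (a : ℤ) ∣ γ 1 0 :=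
    (Int.natCast_dvd_natCast.mpr ((Dvd.intro _ rfl : a ∣ a * m).trans hN)).trans hN'
  obtain ⟨c', hc'⟩ : (m : ℤ) ∣ γ 1 0 :=
    (Int.natCast_dvd_natCast.mpr ((Dvd.intro_left _ rfl : m ∣ a * m).trans hN)).trans hN'
  have := xfun_smul h m hm γ (mem_Gamma0_iff_dvd.mpr ha) (m : ℤ) 0 1 c' hmpos one_pos (mul_one _)
    (by rw [hc', mul_comm]) (one_dvd _) τ
  rw [this, h.chi_one, triMat_eq_dilMat]
  simp [xfun]

theorem xfun_ne_zero (h : IsW1 a χ G Gs) (m : ℕ) [NeZero m] (τ : ℍ) : xfun G m τ ≠ 0 :=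
  div_ne_zero (h.ne_zero _) (h.ne_zero _)

theorem mdiff_xfun (h : IsW1 a χ G Gs) (m : ℕ) [NeZero m] : MDiff (xfun G m) := by
  have hdet : 0 < (dilMat m).det.val := by
    rw [Matrix.GeneralLinearGroup.val_det_apply, coe_dilMat, Matrix.det_fin_two]
    have : (0 : ℝ) < m := by exact_mod_cast Nat.pos_of_ne_zero (NeZero.ne m)
    simpa using this
  have h2 : MDiff (fun τ : ℍ => G (dilMat m • τ)) := h.mdiff.comp (mdifferentiable_smul hdet)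
  have h1 := h.mdiff
  rw [mdifferentiable_iff] at h1 h2 ⊢
  have : (xfun G m ∘ ofComplex) = fun z => (G ∘ ofComplex) z /
      ((fun τ : ℍ => G (dilMat m • τ)) ∘ ofComplex) z := rfl
  rw [this]
  exact h1.div h2 fun z _ => h.ne_zero _

end Fermat.Agent.Lib.EtaUnit
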