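/-
Lib/EtaUnit (architect helper213).  TASK EU-11.
Proof: helper256.
-/
import Fermat.Agent.Lib.EtaUnit.WHA
import Fermat.Agent.Lib.EtaUnit.TExp.Level

set_option autoImplicit false

namespace Fermat.Agent.Lib.EtaUnit

open UpperHalfPlane ModularCurve CongruenceSubgroup Fermat.Agent.S24 Fermat.Agent.S24.B
open scoped MatrixGroups Real Manifold

/-- A `Γ₀(N)`-invariant holomorphic function all of whose translates have an expansion at SOME level
lies in `WHA N`.
PROOF.  `f ∘ γ` has period `N`: `γ T^N γ⁻¹ ∈ Γ(N) ≤ Γ₀(N)` (`CongruenceSubgroup.Gamma_normal`,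
`Gamma_le_Gamma0`-type lemma or a direct computation of the lower left entry `- c² N`).  Bring the
expansion to level `N * M` (`HasTExp.level_mul`, `mul_comm`) and apply `HasTExp.descend`. -/
theorem isWHA_of_exp {N : ℕ} [NeZero N] {f : ℍ → ℂ} (hmd : MDiff f)
    (hinv : ∀ γ ∈ Gamma0 N, ∀ τ : ℍ, f (γ • τ) = f τ)
    (hexp : ∀ γ : SL(2, ℤ), ∃ (M : ℕ) (_ : NeZero M) (s : LaurentSeries Kbar),
      HasTExp M (fun τ => f (γ • τ)) s) : IsWHA N f := by
  refine ⟨hmd, fun γ => ?_⟩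
  obtain ⟨M, hM, s, hs⟩ := hexp γ
  have h1 : HasTExp (N * M) (fun τ => f (γ • τ)) (qExpand Kbar N s) := by
    have := hs.level_mul N
    rwa [mul_comm] at this
  have hmem : γ * ModularGroup.T ^ (N : ℤ) * γ⁻¹ ∈ Gamma0 N := by
    have h2 : ModularGroup.T ^ (N : ℤ) ∈ Gamma N :=
      ModularGroup_T_pow_mem_Gamma (N : ℤ) (N : ℤ) dvd_rfl
    have h3 : γ * ModularGroup.T ^ (N : ℤ) * γ⁻¹ ∈ Gamma N := (Gamma_normal N).conj_mem _ h2 γ
    rw [Gamma_mem] at h3
    rw [Gamma0_mem]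
    exact h3.2.2.1
  have hper : ∀ τ : ℍ, (fun τ => f (γ • τ)) (ModularGroup.T ^ (N : ℤ) • τ)
      = (fun τ => f (γ • τ)) τ := by
    intro τ
    have h4 := hinv _ hmem (γ • τ)
    simp only [mul_smul, inv_smul_smul] at h4
    exact h4
  obtain ⟨s', hs', -⟩ := h1.descend hper
  exact ⟨s', hs'⟩

end Fermat.Agent.Lib.EtaUnit
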