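/-
Lib/EtaUnit (architect helper213).  TASK EU-12.
Statements are frozen interfaces (proofs: helper265).
-/
import Fermat.Agent.Lib.EtaUnit.Unit.Conj
import Fermat.Agent.Lib.EtaUnit.Unit.OfExp
import Fermat.Agent.Lib.EtaUnit.TExp.Misc
import Fermat.Agent.Lib.EtaUnit.TExp.Tri

set_option autoImplicit false

namespace Fermat.Agent.Lib.EtaUnit

open UpperHalfPlane ModularCurve CongruenceSubgroup Fermat.Agent.S24 Fermat.Agent.S24.B
open scoped MatrixGroups Real Manifold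

variable {a : ℕ} {χ : ℤ → ℤ} {G : ℍ → ℂ} {Gs : PowerSeries ℤ}

/-- The expansion of `G` at level `N`. -/
theorem hasTExp_G_level (h : IsW1 a χ G Gs) (N : ℕ) [NeZero N] :
    HasTExp N G (qExpand Kbar N (toL Gs)) := by
  have h1 := h.exp.level_mul N
  rwa [one_mul] at h1

theorem mdiff_inv_of_ne_zero {f : ℍ → ℂ} (hf : MDiff f) (h0 : ∀ τ, f τ ≠ 0) :
    MDiff (fun τ => (f τ)⁻¹) := by
  rw [UpperHalfPlane.mdifferentiable_iff] at hf ⊢
  exact hf.inv fun z _ => h0 _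

/-- Expansion of `x_m ∘ γ` for an ARBITRARY `γ ∈ SL(2,ℤ)`.
PROOF.  `exists_ABD`, `exists_dil_smul`: `G (m γ τ) / denom γ τ = D⁻¹ * (G (γ' w) / denom γ' w)` with
`w = (A τ + B) / D`.  `h.cusp γ'` + `exists_hasTExp_tri` give an expansion of the right hand side,
`h.cusp γ` one of `G (γ τ) / denom γ τ`; both functions have no zeros; common level
(`exists_common_level` or `HasTExp.level_mul` twice), `HasTExp.div`. -/
theorem exists_hasTExp_xfun_smul (h : IsW1 a χ G Gs) (m : ℕ) [NeZero m] (γ : SL(2, ℤ)) :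
    ∃ (M : ℕ) (_ : NeZero M) (s : LaurentSeries Kbar), HasTExp M (fun τ => xfun G m (γ • τ)) s := by
  obtain ⟨A, B, D, c', hA, hD, hAD, hc, hB⟩ := exists_ABD m γ
  obtain ⟨γ', _, _, hγ'⟩ := exists_dil_smul m γ A B D c' hA hD hAD hc hB
  obtain ⟨M₁, hM₁, s₁, hs₁⟩ := h.cusp γ
  obtain ⟨M₂, hM₂, s₂, hs₂⟩ := h.cusp γ'
  obtain ⟨M₃, hM₃, s₃, hs₃⟩ := exists_hasTExp_tri hs₂ A B D hA hD
  have h1 := hs₁.level_mul M₃
  have h3 := hs₃.level_mul M₁
  rw [mul_comm M₃ M₁] at h3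
  have hDC : (D : ℂ) ≠ 0 := by exact_mod_cast hD.ne'
  have hden' : ∀ τ : ℍ, denom γ' (triMat A B D hA hD • τ : ℍ) ≠ 0 := fun τ =>
    UpperHalfPlane.denom_ne_zero _ _
  have hne : ∀ τ : ℍ, G (γ' • triMat A B D hA hD • τ) / denom γ' (triMat A B D hA hD • τ : ℍ) ≠ 0 :=
    fun τ => div_ne_zero (h.ne_zero _) (hden' τ)
  have h4 := (h1.div h3 hne).const_mul ((D : ℤ) : Kbar)
  refine ⟨M₁ * M₃, ⟨mul_ne_zero hM₁.out hM₃.out⟩,
    HahnSeries.C ((D : ℤ) : Kbar) * (qExpand Kbar M₃ s₁ / qExpand Kbar M₁ s₃), ?_⟩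
  convert h4 using 1
  funext τ
  have h5 := (hγ' τ).1
  have h6 := (hγ' τ).2
  have hG := h.ne_zero (γ' • triMat A B D hA hD • τ)
  have hd := hden' τ
  rw [xfun, h5, ← h6, map_intCast]
  field_simp

theorem isWHA_xfun (h : IsW1 a χ G Gs) (m N : ℕ) [NeZero m] [NeZero N] (hm : Nat.Coprime m a)
    (hN : a * m ∣ N) : IsWHA N (xfun G m) :=
  isWHA_of_exp (mdiff_xfun h m) (xfun_smul_of_mem h m N hm hN) (exists_hasTExp_xfun_smul h m)

theorem isWHA_xfun_inv (h : IsW1 a χ G Gs) (m N : ℕ) [NeZero m] [NeZero N] (hm : Nat.Coprime m a)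
    (hN : a * m ∣ N) : IsWHA N (fun τ => (xfun G m τ)⁻¹) := by
  refine isWHA_of_exp (mdiff_inv_of_ne_zero (mdiff_xfun h m) (xfun_ne_zero h m))
    (fun γ hγ τ => by rw [xfun_smul_of_mem h m N hm hN γ hγ τ]) fun γ => ?_
  obtain ⟨M, hM, s, hs⟩ := exists_hasTExp_xfun_smul h m γ
  exact ⟨M, hM, s⁻¹, hs.inv fun τ => xfun_ne_zero h m _⟩

/-- The expansion at `∞` (`h.exp`, `hasTExp_tri`, `triMat_eq_dilMat`, `HasTExp.div`,
`HasTExp.level_mul`). -/
theorem hasTExp_xfun (h : IsW1 a χ G Gs) (m N : ℕ) [NeZero m] [NeZero N] :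
    HasTExp N (xfun G m) (qExpand Kbar N (xser Gs m)) := by
  have hm0 : (0 : ℤ) < (m : ℤ) := by exact_mod_cast Nat.pos_of_ne_zero (NeZero.ne m)
  have h1 := hasTExp_G_level h N
  have h2 := hasTExp_tri (N := N) h.exp (m : ℤ) 0 1 hm0 one_pos (N * m) (by push_cast; ring) 1
    (by simp)
  rw [triMat_eq_dilMat, twist_one] at h2
  have h3 := h1.div h2 fun τ => h.ne_zero _
  rw [xser, map_div₀, qExpand_qExpand]
  exact h3

/-- The expansions of the conjugates under `Γ₀(a)` (`xfun_smul`, `h.exp`, `hasTExp_tri`). -/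
theorem hasTExp_xfun_smul (h : IsW1 a χ G Gs) (m N : ℕ) [NeZero m] [NeZero N]
    (hm : Nat.Coprime m a) (γ : SL(2, ℤ)) (hγ : γ ∈ Gamma0 a) (A B D c' : ℤ) (hA : 0 < A)
    (hD : 0 < D) (hAD : A * D = m) (hc : γ 1 0 = c' * A) (hB : D ∣ γ 1 1 - c' * B)
    (e : ℕ) [NeZero e] (he : (e : ℤ) * D = N * A) (ξ : Kbarˣ)
    (hξ : iota (ξ : Kbar) = Complex.exp (2 * π * Complex.I * B / D)) :
    HasTExp N (fun τ => xfun G m (γ • τ))
      (HahnSeries.C (((χ D * D : ℤ) : Kbar)) *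
        (qExpand Kbar N (toL Gs) / qExpand Kbar e (twist ξ (toL Gs)))) := by
  have h1 := hasTExp_G_level h N
  have h2 := hasTExp_tri (N := N) h.exp A B D hA hD e he ξ hξ
  have h3 := (h1.div h2 fun τ => h.ne_zero _).const_mul ((χ D * D : ℤ) : Kbar)
  convert h3 using 1
  funext τ
  rw [xfun_smul h m hm γ hγ A B D c' hA hD hAD hc hB τ, map_intCast]
  push_cast
  ring

end Fermat.Agent.Lib.EtaUnit
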